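import Fermat.Agent.S18.MOD.H396.Sep
import Fermat.Agent.S24.H84.LaurentDeriv
import Fermat.Agent.S28.H626.Upper
import Fermat.Agent.S28.H867.Core
import Fermat.Agent.S28.H807.Analytic

/-!
# S18 / MOD, piece SEP for Laurent series and for the modular function field (helper396)

* `laurentD_ne_zero_of_coeff` : a series `x = c q⁻¹ + …` (`c ≠ 0`) has `dx/dq ≠ 0` (any
  characteristic).
* `isSeparable_laurent`, `exists_bivariate_separable_laurent` : SEP in `κ((q))`, `κ` perfect.
* `isAlgebraic_of_mem_full`, `isSeparable_of_mem_full`, `exists_bivariate_of_mem_full` :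
  every `y ∈ F_κ = modularFunctionFieldFullC κ N` is algebraic and SEPARABLE over `κ(j̄)` when the
  primes dividing `N` are invertible in the perfect field `κ` (field G-SEP of `GoodModel`, `x = j`).
-/

set_option autoImplicit false

noncomputable section

namespace Fermat.Agent.S18.MOD.H396

open Polynomial IntermediateField ModularCurve

variable (κ : Type*) [Field κ]

theorem laurentD_ne_zero_of_coeff (x : LaurentSeries κ) (hx : x.coeff (-1) ≠ 0) :
    Fermat.Agent.S24.H84.laurentD κ x ≠ 0 := by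
  intro h
  have h2 := congrArg (fun f : LaurentSeries κ => f.coeff (-2)) h
  simp only [Fermat.Agent.S24.H84.laurentD_coeff, HahnSeries.coeff_zero] at h2
  have e : ((-2 : ℤ) + 1) = -1 := by norm_num
  rw [e] at h2
  rcases mul_eq_zero.mp h2 with h3 | h3
  · have : ((-1 : ℤ) : κ) = -1 := by norm_num
    rw [this] at h3
    exact one_ne_zero (neg_eq_zero.mp h3)
  · exact hx h3

theorem laurentD_jqModC_ne_zero : Fermat.Agent.S24.H84.laurentD κ (jqModC κ) ≠ 0 :=
  laurentD_ne_zero_of_coeff κ _ (by rw [coeff_jqModC_neg_one]; exact one_ne_zero)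

/-- `d/dq` as a derivation for the `Algebra.toModule` structure. -/
def laurentDer :
    @Derivation κ (LaurentSeries κ) (LaurentSeries κ) _ _ _ _ Algebra.toModule Algebra.toModule :=
  derivationOfFun (k := κ) (K := LaurentSeries κ) (fun f => Fermat.Agent.S24.H84.laurentD κ f)
    (fun a b => map_add _ a b)
    (fun a b => by
      have := (Fermat.Agent.S24.H84.laurentD κ).leibniz a b
      simpa only [smul_eq_mul] using this)
    (fun c => (Fermat.Agent.S24.H84.laurentD κ).map_algebraMap c)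

theorem laurentDer_apply (f : LaurentSeries κ) :
    laurentDer κ f = Fermat.Agent.S24.H84.laurentD κ f := rfl

/-- **SEP in `κ((q))`.** -/
theorem isSeparable_laurent [PerfectField κ] (x : LaurentSeries κ) (hx : x.coeff (-1) ≠ 0)
    (y : LaurentSeries κ) (hy : IsAlgebraic κ⟮x⟯ y) : IsSeparable κ⟮x⟯ y :=
  isSeparable_of_D_ne_zero (laurentDer κ) x
    (by rw [laurentDer_apply]; exact laurentD_ne_zero_of_coeff κ x hx) y hy

/-- **SEP in `κ((q))`, bivariate form.** -/
theorem exists_bivariate_separable_laurent [PerfectField κ] (x : LaurentSeries κ)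
    (hx : x.coeff (-1) ≠ 0) (y : LaurentSeries κ) (hy : IsAlgebraic κ⟮x⟯ y) :
    ∃ Q : (κ[X])[X], Q.eval₂ (aeval x : κ[X] →ₐ[κ] LaurentSeries κ).toRingHom y = 0 ∧
      (derivative Q).eval₂ (aeval x : κ[X] →ₐ[κ] LaurentSeries κ).toRingHom y ≠ 0 :=
  exists_bivariate_separable (laurentDer κ) x
    (by rw [laurentDer_apply]; exact laurentD_ne_zero_of_coeff κ x hx) y hy

/-- Every element of `F_κ` is algebraic over `κ(j̄)`. -/
theorem isAlgebraic_of_mem_full (N : ℕ) (hN : N ≠ 0)
    (hchar : ∀ p : ℕ, p.Prime → p ∣ N → (p : κ) ≠ 0)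
    (y : LaurentSeries κ) (hy : y ∈ modularFunctionFieldFullC κ N) :
    IsAlgebraic κ⟮jqModC κ⟯ y := by
  have : NeZero N := ⟨hN⟩
  have H : Fermat.Agent.S28.H626.HasModPolys κ N :=
    Fermat.Agent.S28.H867.hasModPolys κ N
      (fun p hp _ _ => Fermat.Agent.S28.H807.nonempty_modPolyData p hp) hchar
  have hfin := Fermat.Agent.S28.H626.finiteDimensional_extendScalars N H
  have hle := Fermat.Agent.S28.H626.adjoin_j_le_full (k := κ) N
  have hy' : y ∈ extendScalars hle := (mem_extendScalars hle).mpr hy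
  have h1 : IsAlgebraic κ⟮jqModC κ⟯ (⟨y, hy'⟩ : extendScalars hle) :=
    (IsIntegral.of_finite κ⟮jqModC κ⟯ (⟨y, hy'⟩ : extendScalars hle)).isAlgebraic
  exact (IntermediateField.isAlgebraic_iff).mp h1

/-- **G-SEP at level `N`, coordinate `j`**: `F_κ / κ(j̄)` is separable. -/
theorem isSeparable_of_mem_full [PerfectField κ] (N : ℕ) (hN : N ≠ 0)
    (hchar : ∀ p : ℕ, p.Prime → p ∣ N → (p : κ) ≠ 0)
    (y : LaurentSeries κ) (hy : y ∈ modularFunctionFieldFullC κ N) :
    IsSeparable κ⟮jqModC κ⟯ y :=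
  isSeparable_laurent κ _ (by rw [coeff_jqModC_neg_one]; exact one_ne_zero) y
    (isAlgebraic_of_mem_full κ N hN hchar y hy)

/-- **G-SEP at level `N`, coordinate `j`, bivariate form.** -/
theorem exists_bivariate_of_mem_full [PerfectField κ] (N : ℕ) (hN : N ≠ 0)
    (hchar : ∀ p : ℕ, p.Prime → p ∣ N → (p : κ) ≠ 0)
    (y : LaurentSeries κ) (hy : y ∈ modularFunctionFieldFullC κ N) :
    ∃ Q : (κ[X])[X],
      Q.eval₂ (aeval (jqModC κ) : κ[X] →ₐ[κ] LaurentSeries κ).toRingHom y = 0 ∧
      (derivative Q).eval₂ (aeval (jqModC κ) : κ[X] →ₐ[κ] LaurentSeries κ).toRingHom y ≠ 0 :=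
  exists_bivariate_separable_laurent κ _ (by rw [coeff_jqModC_neg_one]; exact one_ne_zero) y
    (isAlgebraic_of_mem_full κ N hN hchar y hy)

end Fermat.Agent.S18.MOD.H396
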