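import Mathlib

/-!
# S18 / MOD, piece SEP (helper396, squad S18/S36): separability from a derivation

ABSTRACT, Mathlib-only.  `k` a perfect field, `K` a field extension of `k` with a `k`-derivation
`D : K → K`, `x ∈ K` with `D x ≠ 0`.  Then

* `transcendental_of_D_ne_zero` : `x` is transcendental over `k`;
* `isSeparable_of_D_ne_zero`    : every `y ∈ K` algebraic over `k(x)` is separable over `k(x)`.

Application: `K = κ((q))`, `D = d/dq`, `x = j̄` (or `t̄₂`, `t̄₃`) `= q⁻¹ + …`: the function field
`F_κ ⊆ κ((q))` of the special fibre is separable over `κ(x̄)` (field G-SEP of `GoodModel`).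
-/

set_option autoImplicit false

namespace Fermat.Agent.S18.MOD.H396

open Polynomial IntermediateField

variable {k K : Type*} [Field k] [Field K] [Algebra k K] (D : Derivation k K K)

/-- Over a perfect field of characteristic `p`, a polynomial with zero derivative is a `p`-th
power. -/
theorem exists_pow_eq_of_derivative_eq_zero (p : ℕ) [hp : Fact p.Prime] [CharP k p]
    [PerfectField k] (u : k[X]) (hu : derivative u = 0) : ∃ v : k[X], v ^ p = u := by
  obtain ⟨v, hv⟩ := Polynomial.map_surjective (frobenius k p) (surjective_frobenius k p)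
    (contract p u)
  refine ⟨v, ?_⟩
  rw [← map_frobenius_expand, map_expand, hv, expand_contract p hu hp.out.ne_zero]

/-- `D x ≠ 0` forces `x` to be transcendental over the perfect field `k`. -/
theorem transcendental_of_D_ne_zero [PerfectField k] (x : K) (hx : D x ≠ 0) :
    Transcendental k x := by
  intro halg
  have hint : IsIntegral k x := halg.isIntegral
  have hsep : (minpoly k x).Separable :=
    PerfectField.separable_of_irreducible (minpoly.irreducible hint)
  have h0 : D (aeval x (minpoly k x)) = 0 := by rw [minpoly.aeval, map_zero]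
  rw [Derivation.map_aeval] at h0
  have h1 : aeval x (derivative (minpoly k x)) ≠ 0 :=
    hsep.aeval_derivative_ne_zero (minpoly.aeval k x)
  exact hx ((smul_eq_zero.mp h0).resolve_left h1)

theorem aeval_mem_adjoin_simple (x : K) (r : k[X]) : aeval x r ∈ k⟮x⟯ := by
  rw [mem_adjoin_simple_iff]
  exact ⟨r, 1, by simp⟩

/-- `D` maps `k(x)` into `k(x) · D x`. -/
theorem exists_D_eq_mul (x : K) (a : K) (ha : a ∈ k⟮x⟯) : ∃ b ∈ k⟮x⟯, D a = b * D x := by
  obtain ⟨r, s, rfl⟩ := (mem_adjoin_simple_iff k a).mp ha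
  refine ⟨(aeval x s)⁻¹ ^ 2 *
    (aeval x s * aeval x (derivative r) - aeval x r * aeval x (derivative s)), ?_, ?_⟩
  · exact mul_mem (pow_mem (inv_mem (aeval_mem_adjoin_simple x s)) 2)
      (sub_mem (mul_mem (aeval_mem_adjoin_simple x s) (aeval_mem_adjoin_simple x _))
        (mul_mem (aeval_mem_adjoin_simple x r) (aeval_mem_adjoin_simple x _)))
  · rw [Derivation.leibniz_div, Derivation.map_aeval, Derivation.map_aeval]
    simp only [smul_eq_mul]
    ring

/-- Key lemma: an element of `k(x)` killed by `D` is a `p`-th power in `k(x)`. -/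
theorem exists_pow_eq_of_D_eq_zero (p : ℕ) [hp : Fact p.Prime] [CharP k p] [PerfectField k]
    (x : K) (hx : D x ≠ 0) (a : K) (ha : a ∈ k⟮x⟯) (hDa : D a = 0) :
    ∃ b ∈ k⟮x⟯, b ^ p = a := by
  have : CharP K p := charP_of_injective_algebraMap (algebraMap k K).injective p
  obtain ⟨r, s, rfl⟩ := (mem_adjoin_simple_iff k a).mp ha
  by_cases hs : aeval x s = 0
  · refine ⟨0, zero_mem _, ?_⟩
    rw [hs, div_zero, zero_pow hp.out.ne_zero]
  set u : k[X] := r * s ^ (p - 1) with hu
  have hp1 : p - 1 + 1 = p := Nat.sub_add_cancel hp.out.one_le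
  have ha' : aeval x r / aeval x s = aeval x u / (aeval x s) ^ p := by
    rw [hu, map_mul, map_pow, div_eq_div_iff hs (pow_ne_zero p hs)]
    rw [mul_assoc, ← pow_succ, hp1]
  have hDsp : D ((aeval x s) ^ p) = 0 := by
    rw [Derivation.leibniz_pow, ← Nat.cast_smul_eq_nsmul K, CharP.cast_eq_zero K p, zero_smul]
  have hDu : D (aeval x u) = 0 := by
    rw [ha', Derivation.leibniz_div_const _ _ _ hDsp] at hDa
    exact (smul_eq_zero.mp hDa).resolve_left (inv_ne_zero (pow_ne_zero p hs))
  rw [Derivation.map_aeval] at hDu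
  have hu' : aeval x (derivative u) = 0 := (smul_eq_zero.mp hDu).resolve_right hx
  have htr := transcendental_of_D_ne_zero D x hx
  have hu0 : derivative u = 0 := by
    by_contra h
    exact htr ⟨derivative u, h, hu'⟩
  obtain ⟨v, hv⟩ := exists_pow_eq_of_derivative_eq_zero p u hu0
  refine ⟨aeval x v / aeval x s,
    div_mem (aeval_mem_adjoin_simple x v) (aeval_mem_adjoin_simple x s), ?_⟩
  rw [div_pow, ← map_pow, hv, ← ha']

/-- **SEP.** If `D x ≠ 0`, every element of `K` algebraic over `k(x)` is separable over `k(x)`. -/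
theorem isSeparable_of_D_ne_zero [PerfectField k] (x : K) (hx : D x ≠ 0) (y : K)
    (hy : IsAlgebraic k⟮x⟯ y) : IsSeparable k⟮x⟯ y := by
  classical
  obtain ⟨p, hpc⟩ := CharP.exists k
  have hint : IsIntegral k⟮x⟯ y := hy.isIntegral
  have hirr := minpoly.irreducible hint
  rcases CharP.char_is_prime_or_zero k p with hp | hp0
  swap
  · -- characteristic zero
    subst hp0
    have : CharZero k := CharP.charP_to_charZero k
    have : CharZero k⟮x⟯ := charZero_of_injective_algebraMap (algebraMap k k⟮x⟯).injective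
    exact hirr.separable
  have := Fact.mk hp
  have : CharP k⟮x⟯ p := charP_of_injective_algebraMap (algebraMap k k⟮x⟯).injective p
  rw [IsSeparable, separable_iff_derivative_ne_zero hirr]
  intro hder
  set P := minpoly k⟮x⟯ y with hP
  set n := P.natDegree with hn
  have hmonic : P.Monic := minpoly.monic hint
  -- the coefficientwise derivative
  have hb : ∀ i : ℕ, ∃ b : k⟮x⟯, D ((P.coeff i : k⟮x⟯) : K) = (b : K) * D x := by
    intro i
    obtain ⟨b, hbm, hb⟩ := exists_D_eq_mul D x _ (P.coeff i).2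
    exact ⟨⟨b, hbm⟩, hb⟩
  choose b hb using hb
  -- the terms coming from `∂/∂T` vanish
  have hterm : ∀ i : ℕ, ((P.coeff i : k⟮x⟯) : K) * D (y ^ i) = 0 := by
    intro i
    rcases Nat.eq_zero_or_pos i with rfl | hi
    · rw [pow_zero, Derivation.map_one_eq_zero, mul_zero]
    · obtain ⟨j, rfl⟩ : ∃ j, i = j + 1 := ⟨i - 1, by omega⟩
      have hc : (derivative P).coeff j = 0 := by rw [hder, coeff_zero]
      rw [coeff_derivative] at hc
      have hcK : ((P.coeff (j + 1) : k⟮x⟯) : K) * ((j : K) + 1) = 0 := by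
        have := congrArg (fun z : k⟮x⟯ => (z : K)) hc
        simpa using this
      rw [Derivation.leibniz_pow, ← Nat.cast_smul_eq_nsmul K, smul_eq_mul, smul_eq_mul,
        ← mul_assoc, Nat.cast_succ, hcK, zero_mul]
  have hsum : (∑ i ∈ Finset.range (n + 1), (b i : K) * y ^ i) * D x = 0 := by
    have h0 : D (aeval y P) = 0 := by rw [minpoly.aeval, map_zero]
    rw [aeval_eq_sum_range, map_sum] at h0
    rw [Finset.sum_mul, ← h0]
    refine Finset.sum_congr rfl fun i _ => ?_
    rw [IntermediateField.smul_def, smul_eq_mul, Derivation.leibniz, smul_eq_mul, smul_eq_mul,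
      hterm i, zero_add, hb i]
    ring
  have hsum0 : ∑ i ∈ Finset.range (n + 1), (b i : K) * y ^ i = 0 :=
    (mul_eq_zero.mp hsum).resolve_right hx
  -- `b n = 0`
  have hbn : (b n : K) = 0 := by
    have h1 : P.coeff n = 1 := hmonic.coeff_natDegree
    have h2 := hb n
    rw [h1] at h2
    have h3 : D ((1 : k⟮x⟯) : K) = 0 := by
      rw [show (((1 : k⟮x⟯) : K)) = 1 from rfl, Derivation.map_one_eq_zero]
    rw [h3] at h2
    exact (mul_eq_zero.mp h2.symm).resolve_right hx
  rw [Finset.sum_range_succ, hbn, zero_mul, add_zero] at hsum0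
  -- the polynomial `Pδ`
  set Pδ : (k⟮x⟯)[X] := Polynomial.ofFn n (fun i : Fin n => b i) with hPδ
  have hPδy : aeval y Pδ = 0 := by
    rw [hPδ, ofFn_eq_sum_monomial, map_sum, ← hsum0,
      ← Fin.sum_univ_eq_sum_range (fun i => (b i : K) * y ^ i) n]
    refine Finset.sum_congr rfl fun i _ => ?_
    rw [aeval_monomial]
    rfl
  have hPδ0 : Pδ = 0 := by
    by_contra hne
    have h1 := minpoly.degree_le_of_ne_zero k⟮x⟯ y hne hPδy
    have h2 : Pδ.degree < n := ofFn_degree_lt _
    have h3 : P.degree = n := degree_eq_natDegree hmonic.ne_zero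
    rw [← hP, h3] at h1
    exact absurd (lt_of_le_of_lt h1 h2) (lt_irrefl _)
  have hbi : ∀ i, i < n → b i = 0 := by
    intro i hi
    have := ofFn_coeff_eq_val_of_lt (fun i : Fin n => b i) hi
    rw [← hPδ, hPδ0, coeff_zero] at this
    exact this.symm
  -- all coefficients are killed by `D`
  have hDc : ∀ i, D ((P.coeff i : k⟮x⟯) : K) = 0 := by
    intro i
    rcases lt_trichotomy i n with hi | hi | hi
    · rw [hb i, hbi i hi]
      simp
    · rw [hb i, hi, hbn, zero_mul]
    · rw [coeff_eq_zero_of_natDegree_lt hi]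
      simp
  -- hence they are `p`-th powers
  have hpow : ∀ i, ∃ c : k⟮x⟯, c ^ p = P.coeff i := by
    intro i
    obtain ⟨c, hcm, hc⟩ := exists_pow_eq_of_D_eq_zero D p x hx _ (P.coeff i).2 (hDc i)
    exact ⟨⟨c, hcm⟩, Subtype.ext hc⟩
  have hrange : contract p P ∈ (mapRingHom (frobenius k⟮x⟯ p)).range := by
    rw [Polynomial.mem_map_range]
    intro m
    rw [coeff_contract hp.ne_zero]
    obtain ⟨c, hc⟩ := hpow (m * p)
    exact ⟨c, by rw [← hc]; rfl⟩
  obtain ⟨Q, hQ⟩ := hrange
  have hPQ : P = Q ^ p := by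
    rw [← map_frobenius_expand, map_expand]
    rw [coe_mapRingHom] at hQ
    rw [hQ, expand_contract p hder hp.ne_zero]
  rw [hPQ] at hirr
  exact not_irreducible_pow hp.one_lt.ne' hirr

/-- Every element of `k(x)` is a quotient `r(x) / s(x)` with `s(x) ≠ 0`. -/
theorem exists_quot_repr (x : K) (a : K) (ha : a ∈ k⟮x⟯) :
    ∃ r s : k[X], aeval x s ≠ 0 ∧ a * aeval x s = aeval x r := by
  obtain ⟨r, s, rfl⟩ := (mem_adjoin_simple_iff k a).mp ha
  by_cases hs : aeval x s = 0
  · refine ⟨0, 1, by simp, ?_⟩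
    rw [hs, div_zero]
    simp
  · exact ⟨r, s, hs, div_mul_cancel₀ _ hs⟩

/-- **SEP, bivariate form** (what G-SEP consumes): there is `Q ∈ k[X][T]` with `Q(x, y) = 0` and
`(∂Q/∂T)(x, y) ≠ 0`. -/
theorem exists_bivariate_separable [PerfectField k] (x : K) (hx : D x ≠ 0) (y : K)
    (hy : IsAlgebraic k⟮x⟯ y) :
    ∃ Q : (k[X])[X], Q.eval₂ (aeval x : k[X] →ₐ[k] K).toRingHom y = 0 ∧
      (derivative Q).eval₂ (aeval x : k[X] →ₐ[k] K).toRingHom y ≠ 0 := by
  classical
  have hint : IsIntegral k⟮x⟯ y := hy.isIntegral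
  have hsep : (minpoly k⟮x⟯ y).Separable := isSeparable_of_D_ne_zero D x hx y hy
  set P := minpoly k⟮x⟯ y with hP
  set n := P.natDegree with hn
  have hder : aeval y (derivative P) ≠ 0 :=
    hsep.aeval_derivative_ne_zero (minpoly.aeval k⟮x⟯ y)
  -- representations of the coefficients
  have hrep : ∀ i : ℕ, ∃ r s : k[X], aeval x s ≠ 0 ∧
      ((P.coeff i : k⟮x⟯) : K) * aeval x s = aeval x r := fun i =>
    exists_quot_repr x _ (P.coeff i).2
  choose r s hs hrs using hrep
  set S : k[X] := ∏ j ∈ Finset.range (n + 1), s j with hS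
  have hSx : aeval x S ≠ 0 := by
    rw [hS, map_prod]
    exact Finset.prod_ne_zero_iff.mpr fun j _ => hs j
  set q : ℕ → k[X] := fun i => r i * ∏ j ∈ (Finset.range (n + 1)).erase i, s j with hq
  have hqx : ∀ i, i < n + 1 → aeval x (q i) = aeval x S * ((P.coeff i : k⟮x⟯) : K) := by
    intro i hi
    have hmem : i ∈ Finset.range (n + 1) := Finset.mem_range.mpr hi
    rw [hq, hS, map_mul, ← hrs i, ← Finset.mul_prod_erase _ _ hmem, map_mul]
    ring
  set φ : k[X] →+* K := (aeval x : k[X] →ₐ[k] K).toRingHom with hφ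
  set Q : (k[X])[X] := Polynomial.ofFn (n + 1) (fun i : Fin (n + 1) => q i) with hQ
  have hmap : Q.map φ = C (aeval x S) * P.map (algebraMap k⟮x⟯ K) := by
    ext i
    rw [coeff_map, coeff_C_mul, coeff_map]
    by_cases hi : i < n + 1
    · rw [hQ, ofFn_coeff_eq_val_of_lt _ hi]
      exact hqx i hi
    · rw [hQ, ofFn_coeff_eq_zero_of_ge _ (not_lt.mp hi),
        coeff_eq_zero_of_natDegree_lt (by omega : P.natDegree < i)]
      simp
  refine ⟨Q, ?_, ?_⟩
  · rw [← eval_map, hmap, eval_mul, eval_C, eval_map_algebraMap, minpoly.aeval, mul_zero]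
  · rw [← eval_map, ← derivative_map, hmap, derivative_C_mul, eval_mul, eval_C, derivative_map,
      eval_map_algebraMap]
    exact mul_ne_zero hSx hder

/-- A derivation from a function (useful when the ambient `Module k K` instance of an existing
derivation is not syntactically `Algebra.toModule`, e.g. for Laurent series). -/
noncomputable def derivationOfFun (d : K → K) (hadd : ∀ a b, d (a + b) = d a + d b)
    (hmul : ∀ a b, d (a * b) = a * d b + b * d a) (hconst : ∀ c : k, d (algebraMap k K c) = 0) :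
    Derivation k K K where
  toFun := d
  map_add' := hadd
  map_smul' c a := by
    rw [RingHom.id_apply, Algebra.smul_def, hmul, hconst, mul_zero, add_zero, Algebra.smul_def]
  map_one_eq_zero' := by
    have := hconst 1
    rwa [map_one] at this
  leibniz' a b := by
    simp only [smul_eq_mul]
    exact hmul a b

@[simp] theorem derivationOfFun_apply (d : K → K) (hadd : ∀ a b, d (a + b) = d a + d b)
    (hmul : ∀ a b, d (a * b) = a * d b + b * d a) (hconst : ∀ c : k, d (algebraMap k K c) = 0)
    (a : K) : derivationOfFun d hadd hmul hconst a = d a := rfl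

end Fermat.Agent.S18.MOD.H396
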